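import Mathlib

/-!
# Euler circuits

A connected graph with all degrees even has a closed trail through all edges (Hierholzer).
-/

set_option autoImplicit false

noncomputable section

namespace FA.NetworkFlow

open Finset Classical

variable {V : Type*} [Fintype V]

theorem exists_euler_circuit {G : SimpleGraph V} (hG : G.Connected) (hdeg : ∀ v, Even (G.degree v)) :
    ∃ (u : V) (p : G.Walk u u), p.IsEulerian := by
  have hbound : ∀ {a b : V} (p : G.Walk a b), p.IsTrail → p.length ≤ G.edgeFinset.card := by
    intro a b p hp
    rw [← p.length_edges, ← List.toFinset_card_of_nodup hp.edges_nodup]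
    exact card_le_card fun e he =>
      SimpleGraph.mem_edgeFinset.2 (p.edges_subset_edgeSet (List.mem_toFinset.1 he))
  obtain ⟨x⟩ := hG.nonempty
  let P : ℕ → Prop := fun l => ∃ (a b : V) (p : G.Walk a b), p.IsTrail ∧ p.length = l
  set m := Nat.findGreatest P G.edgeFinset.card with hm
  have hPm : P m :=
    Nat.findGreatest_spec (Nat.zero_le _) ⟨x, x, SimpleGraph.Walk.nil, by simp, rfl⟩
  obtain ⟨u, v, p, hp, hlen⟩ := hPm
  have hmax : ∀ {a b : V} (q : G.Walk a b), q.IsTrail → q.length ≤ p.length := by
    intro a b q hq
    rw [hlen]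
    exact Nat.le_findGreatest (hbound q hq) ⟨a, b, q, hq, rfl⟩
  have huv : u = v := by
    by_contra hne
    have hodd : ¬Even (p.edges.countP fun e => v ∈ e) := by
      rw [hp.even_countP_edges_iff v]
      exact fun h => (h hne).2 rfl
    obtain ⟨w, hw, hwp⟩ : ∃ w, G.Adj v w ∧ s(v, w) ∉ p.edges := by
      by_contra hcon
      push Not at hcon
      apply hodd
      have he : (p.edges.countP fun e => v ∈ e) = G.degree v := by
        rw [List.countP_eq_length_filter, ← List.toFinset_card_of_nodup (hp.edges_nodup.filter _),
          ← SimpleGraph.card_incidenceFinset_eq_degree]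
        congr 1
        ext e
        simp only [List.mem_toFinset, List.mem_filter, decide_eq_true_eq,
          SimpleGraph.mem_incidenceFinset, SimpleGraph.incidenceSet, Set.mem_ofPred_eq]
        refine ⟨fun h => ⟨p.edges_subset_edgeSet h.1, h.2⟩, fun h => ⟨?_, h.2⟩⟩
        obtain ⟨w, rfl⟩ := Sym2.mem_iff_exists.1 h.2
        exact hcon w h.1
      rw [he]; exact hdeg v
    have hq : (SimpleGraph.Walk.cons hw.symm p.reverse).IsTrail := by
      rw [SimpleGraph.Walk.isTrail_cons]
      refine ⟨hp.reverse, ?_⟩
      rw [SimpleGraph.Walk.edges_reverse, List.mem_reverse, Sym2.eq_swap]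
      exact hwp
    have := hmax _ hq
    simp at this
  subst huv
  refine ⟨u, p, hp.isEulerian_of_forall_mem ?_⟩
  by_contra hcon
  push Not at hcon
  obtain ⟨e, he, hep⟩ := hcon
  induction e using Sym2.ind with
  | _ a b =>
    obtain ⟨w, z, hw, hwz, hwzp⟩ : ∃ w z, w ∈ p.support ∧ G.Adj w z ∧ s(w, z) ∉ p.edges := by
      by_contra hno
      push Not at hno
      have hall : ∀ c, c ∈ p.support := by
        intro c
        obtain ⟨q⟩ := hG.preconnected u c
        by_contra hc
        obtain ⟨d, -, hd1, hd2⟩ :=
          q.exists_boundary_dart {x | x ∈ p.support} p.start_mem_support hc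
        exact hd2 (p.snd_mem_support_of_mem_edges (hno d.fst d.snd hd1 d.adj))
      exact hep (hno a b (hall a) he)
    have hrot := hp.rotate hw
    have hq : (SimpleGraph.Walk.cons hwz.symm (p.rotate w hw)).IsTrail := by
      rw [SimpleGraph.Walk.isTrail_cons]
      refine ⟨hrot, fun h => hwzp ?_⟩
      rw [Sym2.eq_swap]
      exact (p.rotate_edges w hw).mem_iff.1 h
    have h1 := hmax _ hq
    have h2 : (p.rotate w hw).length = p.length := by
      rw [← SimpleGraph.Walk.length_edges, (p.rotate_edges w hw).perm.length_eq,
        SimpleGraph.Walk.length_edges]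
    simp [h2] at h1

end FA.NetworkFlow
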