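import Mathlib

/-!
# Flows, cuts and path decompositions

The theorem of Ford and Fulkerson for real and integral capacities, and the splitting of an
integral flow into paths.
-/

set_option autoImplicit false

noncomputable section

namespace FA.NetworkFlow

open Finset Classical

variable {V : Type*} [Fintype V] {R : Type*} [CommRing R] [LinearOrder R] [IsStrictOrderedRing R]

/-- A flow, given by the skew-symmetric net amounts on pairs. -/
structure IsFlow (c : V → V → R) (s t : V) (f : V → V → R) : Prop where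
  skew : ∀ u v, f u v = -f v u
  le : ∀ u v, f u v ≤ c u v
  conserve : ∀ v, v ≠ s → v ≠ t → ∑ w, f v w = 0

/-- The amount leaving the source. -/
def flowValue (f : V → V → R) (s : V) : R := ∑ w, f s w

/-- The capacity across a cut. -/
def cutCap (c : V → V → R) (S : Finset V) : R := ∑ u ∈ S, ∑ v ∈ Sᶜ, c u v

lemma flowValue_eq_across {c : V → V → R} {s t : V} {f : V → V → R} (hf : IsFlow c s t f)
    {S : Finset V} (hs : s ∈ S) (ht : t ∉ S) : flowValue f s = ∑ u ∈ S, ∑ v ∈ Sᶜ, f u v := by
  have h1 : ∑ u ∈ S, ∑ v, f u v = flowValue f s := by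
    rw [Finset.sum_eq_single s]
    · rfl
    · exact fun u hu hne => hf.conserve u hne fun he => ht (he ▸ hu)
    · exact fun h => absurd hs h
  have h2 : ∑ u ∈ S, ∑ v ∈ S, f u v = 0 := by
    have h3 : ∑ u ∈ S, ∑ v ∈ S, f u v = -∑ u ∈ S, ∑ v ∈ S, f u v := by
      rw [← sum_neg_distrib]
      conv_lhs => rw [sum_comm]
      refine sum_congr rfl fun u _ => ?_
      rw [← sum_neg_distrib]
      exact sum_congr rfl fun v _ => hf.skew v u
    linarith
  rw [← h1, ← add_zero (∑ u ∈ S, ∑ v ∈ Sᶜ, f u v), ← h2, ← sum_add_distrib]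
  refine sum_congr rfl fun u _ => ?_
  rw [add_comm, sum_add_sum_compl]

lemma flowValue_le_cutCap {c : V → V → R} {s t : V} {f : V → V → R} (hf : IsFlow c s t f)
    {S : Finset V} (hs : s ∈ S) (ht : t ∉ S) : flowValue f s ≤ cutCap c S := by
  rw [flowValue_eq_across hf hs ht]
  exact sum_le_sum fun u _ => sum_le_sum fun v _ => hf.le u v

lemma le_cutCap {c : V → V → R} (hc : ∀ u v, 0 ≤ c u v) {S : Finset V} {a b : V} (ha : a ∈ S)
    (hb : b ∉ S) : c a b ≤ cutCap c S :=
  le_trans (single_le_sum (f := fun v => c a v) (fun v _ => hc a v) (mem_compl.2 hb))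
    (single_le_sum (f := fun u => ∑ v ∈ Sᶜ, c u v) (fun u _ => sum_nonneg fun v _ => hc u v) ha)

lemma card_le_cutCap {c : V → V → R} (hc : ∀ u v, 0 ≤ c u v) {S T : Finset V} (hT : T ⊆ S)
    (h : ∀ x ∈ T, ∃ b, b ∉ S ∧ 1 ≤ c x b) : (T.card : R) ≤ cutCap c S := by
  have h1 : ∀ x ∈ T, (1 : R) ≤ ∑ b ∈ Sᶜ, c x b := fun x hx => by
    obtain ⟨b, hb, h1⟩ := h x hx
    exact h1.trans (single_le_sum (f := fun v => c x v) (fun v _ => hc x v) (mem_compl.2 hb))
  have h2 := sum_le_sum h1
  rw [sum_const, nsmul_eq_mul, mul_one] at h2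
  exact h2.trans (sum_le_sum_of_subset_of_nonneg hT fun a _ _ => sum_nonneg fun b _ => hc a b)

/-- The points reached in at most `n` steps. -/
def reachLevel (r : V → V → Prop) (s : V) : ℕ → Finset V
  | 0 => {s}
  | n + 1 => reachLevel r s n ∪ univ.filter fun v => ∃ u ∈ reachLevel r s n, r u v

lemma reachLevel_mono (r : V → V → Prop) (s : V) {m n : ℕ} (h : m ≤ n) :
    reachLevel r s m ⊆ reachLevel r s n := by
  induction h with
  | refl => exact subset_rfl
  | step _ ih => exact ih.trans subset_union_left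

/-- The points reached from `s`. -/
def reachSet (r : V → V → Prop) (s : V) : Finset V :=
  univ.filter fun v => ∃ n, v ∈ reachLevel r s n

lemma self_mem_reachSet (r : V → V → Prop) (s : V) : s ∈ reachSet r s :=
  mem_filter.2 ⟨mem_univ s, 0, mem_singleton_self s⟩

lemma reachSet_closed {r : V → V → Prop} {s u v : V} (hu : u ∈ reachSet r s) (h : r u v) :
    v ∈ reachSet r s := by
  obtain ⟨n, hn⟩ := (mem_filter.1 hu).2
  exact mem_filter.2 ⟨mem_univ v, n + 1,
    mem_union_right _ (mem_filter.2 ⟨mem_univ v, u, hn, h⟩)⟩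

/-- A unit flow along a shortest path. -/
lemma exists_path_flow {r : V → V → Prop} {s : V} :
    ∀ (n : ℕ) (v : V), v ∈ reachLevel r s n → ∃ (g : V → V → R) (L : List V) (hL : L ≠ []),
      (∀ a b, g a b = -g b a) ∧ (∀ a b, g a b = 0 ∨ g a b = 1 ∨ g a b = -1) ∧
      (∀ a b, g a b = 1 → r a b) ∧
      (∀ a b, g a b ≠ 0 → a ∈ reachLevel r s n ∧ b ∈ reachLevel r s n) ∧
      (∀ a, ∑ b, g a b = (if a = s then 1 else 0) - if a = v then 1 else 0) ∧
      L.head hL = s ∧ L.getLast hL = v ∧ L.IsChain fun a b => g a b = 1 := by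
  intro n
  induction n with
  | zero =>
    intro v hv
    obtain rfl : v = s := mem_singleton.1 hv
    exact ⟨fun _ _ => 0, [v], by simp, by simp, by simp, by simp, by simp, by simp, rfl, rfl,
      List.isChain_singleton v⟩
  | succ n ih =>
    intro v hv
    by_cases hold : v ∈ reachLevel r s n
    · obtain ⟨g, L, hL, h1, h2, h3, h4, h5, h6⟩ := ih v hold
      exact ⟨g, L, hL, h1, h2, h3, fun a b h => ⟨reachLevel_mono r s (Nat.le_succ n) (h4 a b h).1,
        reachLevel_mono r s (Nat.le_succ n) (h4 a b h).2⟩, h5, h6⟩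
    obtain ⟨u, hu, huv⟩ := (mem_filter.1 ((mem_union.1 hv).resolve_left hold)).2
    obtain ⟨g, L, hL, hskew, hval, hrel, hsupp, hnet, hhead, hlast, hch⟩ := ih u hu
    have hne : u ≠ v := fun he => hold (he ▸ hu)
    have hzero : ∀ a, g a v = 0 ∧ g v a = 0 := fun a =>
      ⟨by_contra fun h => hold (hsupp _ _ h).2, by_contra fun h => hold (hsupp _ _ h).1⟩
    let g' : V → V → R := fun a b =>
      g a b + (if a = u ∧ b = v then 1 else 0) - if a = v ∧ b = u then 1 else 0
    have huv' : g' u v = 1 := by simp [g', (hzero u).1, hne]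
    have hkeep : ∀ a b, g a b = 1 → g' a b = 1 := by
      intro a b h
      have ha : a ≠ v := fun he => by rw [he, (hzero b).2] at h; exact zero_ne_one h
      have hb : b ≠ v := fun he => by rw [he, (hzero a).1] at h; exact zero_ne_one h
      simp [g', ha, hb, h]
    refine ⟨g', L ++ [v], by simp, fun a b => ?_, fun a b => ?_, fun a b h => ?_, fun a b h => ?_,
      fun a => ?_, ?_, ?_, ?_⟩
    · simp only [g', hskew a b, and_comm]; ring
    · by_cases h1 : a = u ∧ b = v
      · right; left; rw [h1.1, h1.2]; exact huv'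
      · by_cases h2 : a = v ∧ b = u
        · right; right; simp [g', h2.1, h2.2, (hzero u).2, hne]
        · simpa [g', h1, h2] using hval a b
    · by_cases h1 : a = u ∧ b = v
      · rw [h1.1, h1.2]; exact huv
      · by_cases h2 : a = v ∧ b = u
        · simp [g', h2.1, h2.2, (hzero u).2, hne] at h
          linarith [zero_lt_one (α := R)]
        · exact hrel a b (by simpa [g', h1, h2] using h)
    · have hvn : v ∈ reachLevel r s (n + 1) := hv
      have hun : u ∈ reachLevel r s (n + 1) := reachLevel_mono r s (Nat.le_succ n) hu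
      by_cases h1 : a = u ∧ b = v
      · rw [h1.1, h1.2]; exact ⟨hun, hvn⟩
      · by_cases h2 : a = v ∧ b = u
        · rw [h2.1, h2.2]; exact ⟨hvn, hun⟩
        · obtain ⟨e1, e2⟩ := hsupp a b (by simpa [g', h1, h2] using h)
          exact ⟨reachLevel_mono r s (Nat.le_succ n) e1, reachLevel_mono r s (Nat.le_succ n) e2⟩
    · have hvs : v ≠ s := fun he => hold (he ▸ reachLevel_mono r s (Nat.zero_le n) (mem_singleton_self s))
      simp only [g', sum_sub_distrib, sum_add_distrib, hnet a, ite_and]
      by_cases hau : a = u <;> by_cases hav : a = v <;> simp [hau, hav, hne, hne.symm]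
    · rw [List.head_append_of_ne_nil hL, hhead]
    · simp
    · refine (hch.imp fun a b h => hkeep a b h).append (List.isChain_singleton v) fun x hx y hy => ?_
      rw [List.getLast?_eq_some_getLast hL] at hx
      simp at hx hy
      rw [← hx, hlast, ← hy]
      exact huv'

variable {c : V → V → R} {s t : V} {f : V → V → R}

/-- A flow that cannot be increased fills a cut. -/
theorem exists_full_cut (hf : IsFlow c s t f) (hst : s ≠ t)
    (hmax : ∀ f', IsFlow c s t f' → flowValue f' s ≤ flowValue f s) :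
    ∃ S : Finset V, s ∈ S ∧ t ∉ S ∧ flowValue f s = cutCap c S := by
  set r : V → V → Prop := fun a b => a ≠ b ∧ f a b < c a b with hr
  set S := reachSet r s with hS
  have hsS : s ∈ S := self_mem_reachSet r s
  have htS : t ∉ S := by
    intro ht
    obtain ⟨n, hn⟩ := (mem_filter.1 ht).2
    obtain ⟨g, L, hL, hskew, hval, hrel, -, hnet, -⟩ :=
      exists_path_flow (R := R) (r := r) n t hn
    set P := (univ : Finset (V × V)).filter fun p => r p.1 p.2 with hP
    have hg1 : ∃ p, p ∈ P := by
      have h1 : ∑ b, g s b = 1 := by rw [hnet s]; simp [hst]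
      obtain ⟨b, hb⟩ : ∃ b, 0 < g s b := by
        by_contra hcon
        push Not at hcon
        have := sum_nonpos fun b (_ : b ∈ univ) => hcon b
        rw [h1] at this
        exact not_lt.2 this zero_lt_one
      rcases hval s b with h | h | h
      · rw [h] at hb; exact absurd hb (lt_irrefl _)
      · exact ⟨(s, b), mem_filter.2 ⟨mem_univ _, hrel s b h⟩⟩
      · rw [h] at hb; exact absurd hb (not_lt.2 (neg_nonpos.2 zero_le_one))
    obtain ⟨p, hp, hmin⟩ := exists_min_image P (fun p => c p.1 p.2 - f p.1 p.2) hg1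
    set δ := c p.1 p.2 - f p.1 p.2 with hδ
    have hδ0 : 0 < δ := sub_pos.2 (mem_filter.1 hp).2.2
    have hf' : IsFlow c s t fun a b => f a b + δ * g a b := by
      refine ⟨fun a b => ?_, fun a b => ?_, fun a h1 h2 => ?_⟩
      · rw [hf.skew a b, hskew a b]; ring
      · rcases hval a b with h | h | h
        · rw [h, mul_zero, add_zero]; exact hf.le a b
        · have := hmin (a, b) (mem_filter.2 ⟨mem_univ _, hrel a b h⟩)
          simp only at this
          rw [h, mul_one]; linarith
        · rw [h, mul_neg, mul_one]; linarith [hf.le a b]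
      · rw [sum_add_distrib, ← mul_sum, hf.conserve a h1 h2, hnet a]
        simp [h1, h2]
    have := hmax _ hf'
    simp only [flowValue, sum_add_distrib, ← mul_sum, hnet s] at this
    simp [hst] at this
    linarith
  refine ⟨S, hsS, htS, ?_⟩
  rw [flowValue_eq_across hf hsS htS]
  refine sum_congr rfl fun u hu => sum_congr rfl fun v hv => ?_
  refine le_antisymm (hf.le u v) (le_of_not_gt fun hlt => mem_compl.1 hv ?_)
  exact reachSet_closed hu ⟨fun he => mem_compl.1 hv (he ▸ hu), hlt⟩

omit [IsStrictOrderedRing R] in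
lemma isFlow_zero (hc : ∀ u v, 0 ≤ c u v) : IsFlow c s t fun _ _ => (0 : R) :=
  ⟨fun _ _ => neg_zero.symm, hc, fun _ _ _ => sum_const_zero⟩

/-- Max-flow min-cut for real capacities. -/
theorem max_flow_real {c : V → V → ℝ} (hc : ∀ u v, 0 ≤ c u v) {s t : V} (hst : s ≠ t) :
    ∃ (f : V → V → ℝ) (S : Finset V), IsFlow c s t f ∧ s ∈ S ∧ t ∉ S ∧
      flowValue f s = cutCap c S := by
  set F := {f : V → V → ℝ | IsFlow c s t f} with hF
  have hcl : IsClosed F := by
    have he : F = (⋂ u, ⋂ v, {f : V → V → ℝ | f u v = -f v u}) ∩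
        (⋂ u, ⋂ v, {f : V → V → ℝ | f u v ≤ c u v}) ∩
        ⋂ v, ⋂ (_ : v ≠ s), ⋂ (_ : v ≠ t), {f : V → V → ℝ | ∑ w, f v w = 0} := by
      ext f
      simp only [hF, Set.mem_ofPred_eq, Set.mem_inter_iff, Set.mem_iInter]
      exact ⟨fun h => ⟨⟨h.skew, h.le⟩, h.conserve⟩, fun h => ⟨h.1.1, h.1.2, h.2⟩⟩
    rw [he]
    refine ((isClosed_iInter fun u => isClosed_iInter fun v => ?_).inter
      (isClosed_iInter fun u => isClosed_iInter fun v => ?_)).inter
      (isClosed_iInter fun v => isClosed_iInter fun _ => isClosed_iInter fun _ => ?_)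
    · exact isClosed_eq (by fun_prop) (by fun_prop)
    · exact isClosed_le (by fun_prop) continuous_const
    · exact isClosed_eq (by fun_prop) continuous_const
  have hsub : F ⊆ Set.Icc (fun u v => -c v u) c := by
    refine fun f hf => ⟨fun u v => ?_, hf.le⟩
    show -c v u ≤ f u v
    rw [hf.skew u v]
    exact neg_le_neg (hf.le v u)
  have hcpt : IsCompact F := isCompact_Icc.of_isClosed_subset hcl hsub
  obtain ⟨f, hf, hmax⟩ := hcpt.exists_isMaxOn ⟨_, isFlow_zero hc⟩
    (f := fun f => flowValue f s) (by unfold flowValue; fun_prop)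
  obtain ⟨S, h1, h2, h3⟩ := exists_full_cut hf hst fun f' h => hmax h
  exact ⟨f, S, hf, h1, h2, h3⟩

/-- Max-flow min-cut for integral capacities. -/
theorem max_flow_int {c : V → V → ℤ} (hc : ∀ u v, 0 ≤ c u v) {s t : V} (hst : s ≠ t) :
    ∃ (f : V → V → ℤ) (S : Finset V), IsFlow c s t f ∧ s ∈ S ∧ t ∉ S ∧
      flowValue f s = cutCap c S := by
  obtain ⟨_, ⟨f, hf, rfl⟩, hub⟩ := Int.exists_greatest_of_bdd
    (P := fun z => ∃ f, IsFlow c s t f ∧ flowValue f s = z)
    ⟨cutCap c {s}, fun z ⟨f, hf, he⟩ =>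
      he ▸ flowValue_le_cutCap hf (mem_singleton_self s) (by simpa using hst.symm)⟩
    ⟨0, _, isFlow_zero hc, sum_const_zero⟩
  obtain ⟨S, h1, h2, h3⟩ := exists_full_cut hf hst fun f' h => hub _ ⟨f', h, rfl⟩
  exact ⟨f, S, hf, h1, h2, h3⟩

/-- An integral flow of value at least `k` contains `k` paths. -/
theorem flow_decomposition {c : V → V → ℤ} (hc : ∀ u v, 0 ≤ c u v) {s t : V} (hst : s ≠ t) :
    ∀ (k : ℕ) (f : V → V → ℤ), IsFlow c s t f → (k : ℤ) ≤ flowValue f s →
      ∃ (g : Fin k → V → V → ℤ) (L : Fin k → List V),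
        (∀ a b, ∑ i, max (g i a b) 0 ≤ max (f a b) 0) ∧
        ∀ i, ∃ hL : L i ≠ [], (L i).head hL = s ∧ (L i).getLast hL = t ∧
          (L i).IsChain fun a b => g i a b = 1 := by
  intro k
  induction k with
  | zero =>
    intro f _ _
    exact ⟨Fin.elim0, Fin.elim0, fun a b => by simp, fun i => Fin.elim0 i⟩
  | succ k ih =>
    intro f hf hk
    set r : V → V → Prop := fun a b => a ≠ b ∧ 1 ≤ f a b with hr
    have ht : t ∈ reachSet r s := by
      by_contra ht
      have h := flowValue_eq_across hf (self_mem_reachSet r s) ht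
      have hle : ∑ u ∈ reachSet r s, ∑ v ∈ (reachSet r s)ᶜ, f u v ≤ 0 :=
        sum_nonpos fun u hu => sum_nonpos fun v hv => by
          by_contra hlt
          exact mem_compl.1 hv (reachSet_closed hu
            ⟨fun he => mem_compl.1 hv (he ▸ hu), by omega⟩)
      push_cast at hk
      omega
    obtain ⟨n, hn⟩ := (mem_filter.1 ht).2
    obtain ⟨g, L, hL, hskew, hval, hrel, -, hnet, hhead, hlast, hch⟩ :=
      exists_path_flow (R := ℤ) (r := r) n t hn
    set f' : V → V → ℤ := fun a b => f a b - g a b with hf'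
    have hkey : ∀ a b, max (g a b) 0 + max (f' a b) 0 ≤ max (f a b) 0 := by
      intro a b
      simp only [hf']
      rcases hval a b with h | h | h
      · simp [h]
      · have := (hrel a b h).2
        rw [h]; omega
      · have := (hrel b a (by rw [hskew b a, h, neg_neg])).2
        have := hf.skew b a
        rw [h]; omega
    have hskew' : ∀ a b, f' a b = -f' b a := fun a b => by
      simp only [hf']; rw [hf.skew a b, hskew a b]; ring
    have hcons' : ∀ a, a ≠ s → a ≠ t → ∑ b, f' a b = 0 := fun a h1 h2 => by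
      simp only [hf', sum_sub_distrib, hf.conserve a h1 h2, hnet a]
      simp [h1, h2]
    obtain ⟨G, M, hsum, hM⟩ : ∃ (g : Fin k → V → V → ℤ) (L : Fin k → List V),
        (∀ a b, ∑ i, max (g i a b) 0 ≤ max (f' a b) 0) ∧
        ∀ i, ∃ hL : L i ≠ [], (L i).head hL = s ∧ (L i).getLast hL = t ∧
          (L i).IsChain fun a b => g i a b = 1 := by
      refine ih f' ⟨hskew', fun a b => ?_, hcons'⟩ ?_
      · have h1 := hf.le a b
        rcases hval a b with h | h | h
        · simp [hf', h, h1]
        · simp only [hf', h]; omega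
        · have e1 := (hrel b a (by rw [hskew b a, h, neg_neg])).2
          have e2 := hf.skew b a
          have e3 := hc a b
          simp only [hf', h]
          omega
      · simp only [flowValue, hf', sum_sub_distrib, hnet s]
        simp [hst]
        simp only [flowValue] at hk
        push_cast at hk
        omega
    refine ⟨Fin.cons g G, Fin.cons L M, fun a b => ?_, fun i => ?_⟩
    · rw [Fin.sum_univ_succ]
      simp only [Fin.cons_zero, Fin.cons_succ]
      linarith [hkey a b, hsum a b]
    · cases i using Fin.cases with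
      | zero => exact ⟨hL, hhead, hlast, hch⟩
      | succ i => simpa using hM i

end FA.NetworkFlow
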