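import Fermat.Agent.NetworkFlow.Flow

/-!
# Menger's theorem

Edge-disjoint and internally disjoint paths, by integral flows in the graph and in the graph with
split points.
-/

set_option autoImplicit false

noncomputable section

namespace FA.NetworkFlow

open Finset Classical

variable {V : Type*}

lemma reachable_of_chain {H : SimpleGraph V} :
    ∀ (L : List V) (hL : L ≠ []), (L.IsChain fun a b => a = b ∨ H.Adj a b) →
      ∃ p : H.Walk (L.head hL) (L.getLast hL), ∀ x ∈ p.support, x ∈ L := by
  intro L
  induction L with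
  | nil => intro hL; exact absurd rfl hL
  | cons a L ih =>
    intro hL hch
    cases L with
    | nil => exact ⟨SimpleGraph.Walk.nil, fun x hx => hx⟩
    | cons b L =>
      obtain ⟨hab, hch'⟩ := List.isChain_cons_cons.1 hch
      obtain ⟨p, hp⟩ := ih (by simp) hch'
      rcases hab with h | h
      · refine ⟨p.copy h.symm (by simp [List.getLast_cons]), fun x hx => ?_⟩
        rw [SimpleGraph.Walk.support_copy] at hx
        exact List.mem_cons_of_mem _ (hp x hx)
      · refine ⟨(SimpleGraph.Walk.cons h p).copy rfl (by simp [List.getLast_cons]), fun x hx => ?_⟩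
        rw [SimpleGraph.Walk.support_copy, SimpleGraph.Walk.support_cons, List.mem_cons] at hx
        rcases hx with rfl | hx
        · exact List.mem_cons_self
        · exact List.mem_cons_of_mem _ (hp x hx)

variable [Fintype V]

/-- Menger's theorem for edges, the main direction. -/
theorem exists_edge_disjoint_paths (G : SimpleGraph V) {s t : V} (hst : s ≠ t) (k : ℕ)
    (h : G.IsEdgeReachable k s t) :
    ∃ P : Fin k → G.Path s t,
      Pairwise fun i j => Disjoint (P i).1.edgeSet (P j).1.edgeSet := by
  set c : V → V → ℤ := fun u v => if G.Adj u v then 1 else 0 with hc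
  have hc0 : ∀ u v, 0 ≤ c u v := fun u v => by simp only [hc]; split_ifs <;> omega
  obtain ⟨f, S, hf, hs, ht, hval⟩ := max_flow_int hc0 hst
  have hk : (k : ℤ) ≤ flowValue f s := by
    by_contra hlt
    set X := ((S ×ˢ Sᶜ).filter fun p => G.Adj p.1 p.2).image fun p => s(p.1, p.2) with hX
    have hcap : (((S ×ˢ Sᶜ).filter fun p => G.Adj p.1 p.2).card : ℤ) = cutCap c S := by
      rw [cutCap, ← sum_product', card_filter, Nat.cast_sum]
      exact sum_congr rfl fun p _ => by simp only [hc]; split_ifs <;> simp
    have hcard : X.card < k := by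
      have : X.card ≤ _ := card_image_le
      omega
    obtain ⟨p⟩ := h (s := (X : Set (Sym2 V))) (by
      rw [Set.encard_coe_eq_coe_finsetCard]; exact_mod_cast hcard)
    obtain ⟨d, -, hd1, hd2⟩ := p.exists_boundary_dart (S : Set V) hs ht
    have hadj := SimpleGraph.deleteEdges_adj.1 d.adj
    exact hadj.2 (mem_coe.2 (mem_image.2 ⟨(d.fst, d.snd), mem_filter.2
      ⟨mem_product.2 ⟨mem_coe.1 hd1, mem_compl.2 hd2⟩, hadj.1⟩, rfl⟩))
  obtain ⟨g, L, hsum, hL⟩ := flow_decomposition hc0 hst k f hf hk
  choose hne hhead hlast hch using hL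
  have hone : ∀ i a b, g i a b = 1 → G.Adj a b ∧ f a b = 1 := by
    intro i a b h1
    have h2 := single_le_sum (f := fun j => max (g j a b) 0) (fun j _ => le_max_right _ _) (mem_univ i)
    have h3 := hsum a b
    have h4 := hf.le a b
    simp only [h1] at h2
    by_cases hab : G.Adj a b
    · simp only [hc, if_pos hab] at h4; exact ⟨hab, by omega⟩
    · simp only [hc, if_neg hab] at h4; omega
  have hpath : ∀ i, ∃ P : G.Path s t, ∀ e ∈ P.1.edges, ∃ a b, e = s(a, b) ∧ g i a b = 1 := by
    intro i
    set H : SimpleGraph V := SimpleGraph.fromRel fun a b => g i a b = 1 with hH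
    have hHG : H ≤ G := by
      intro a b hab
      rcases ((SimpleGraph.fromRel_adj _ _ _).1 hab).2 with h1 | h1
      · exact (hone i a b h1).1
      · exact (hone i b a h1).1.symm
    obtain ⟨p, -⟩ := reachable_of_chain (H := H) (L i) (hne i) ((hch i).imp fun a b h1 => Or.inr
      ((SimpleGraph.fromRel_adj _ _ _).2 ⟨(hone i a b h1).1.ne, Or.inl h1⟩))
    set q := (p.copy (hhead i) (hlast i)).bypass with hq
    refine ⟨⟨q.mapLe hHG, SimpleGraph.Walk.IsPath.mapLe hHG (SimpleGraph.Walk.bypass_isPath _)⟩,
      fun e he => ?_⟩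
    rw [SimpleGraph.Walk.edges_mapLe_eq_edges] at he
    have he' := q.edges_subset_edgeSet he
    induction e using Sym2.ind with
    | _ a b =>
      have he'' : (SimpleGraph.fromRel fun a b => g i a b = 1).Adj a b := he'
      rcases ((SimpleGraph.fromRel_adj _ _ _).1 he'').2 with h1 | h1
      · exact ⟨a, b, rfl, h1⟩
      · exact ⟨b, a, Sym2.eq_swap, h1⟩
  choose P hP using hpath
  refine ⟨P, fun i j hij => Set.disjoint_left.2 fun e he1 he2 => ?_⟩
  obtain ⟨a, b, rfl, h1⟩ := hP i e he1
  obtain ⟨a', b', he, h2⟩ := hP j _ he2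
  obtain ⟨-, e1⟩ := hone i a b h1
  obtain ⟨-, e2⟩ := hone j a' b' h2
  rcases Sym2.eq_iff.1 he with ⟨rfl, rfl⟩ | ⟨rfl, rfl⟩
  · have h3 := (sum_le_sum_of_subset_of_nonneg (subset_univ ({i, j} : Finset (Fin k)))
      fun l _ _ => le_max_right (g l a b) 0).trans (hsum a b)
    rw [sum_pair hij, h1, h2, e1] at h3
    omega
  · have := hf.skew a b
    omega

omit [Fintype V] in
/-- The converse for edges. -/
theorem isEdgeReachable_of_paths {G : SimpleGraph V} {s t : V} {k : ℕ} (P : Fin k → G.Path s t)
    (hP : Pairwise fun i j => Disjoint (P i).1.edgeSet (P j).1.edgeSet) :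
    G.IsEdgeReachable k s t := by
  intro X hX
  obtain ⟨i, hi⟩ : ∃ i, Disjoint (P i).1.edgeSet X := by
    by_contra hcon
    push Not at hcon
    choose e he1 he2 using fun i => Set.not_disjoint_iff.1 (hcon i)
    have hinj : Function.Injective e := fun i j he => by
      by_contra hne
      exact Set.disjoint_left.1 (hP hne) (he1 i) (he ▸ he1 j)
    have h1 : (Set.range e).encard ≤ X.encard :=
      Set.encard_le_encard (Set.range_subset_iff.2 he2)
    rw [← Set.image_univ, hinj.encard_image, Set.encard_univ, ENat.card_eq_coe_fintype_card,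
      Fintype.card_fin] at h1
    exact not_lt.2 h1 hX
  exact ((P i).1.toDeleteEdges X fun e he hX' => Set.disjoint_left.1 hi he hX').reachable

/-- Menger's theorem for points, the main direction. -/
theorem exists_internally_disjoint_paths (G : SimpleGraph V) {s t : V} (hst : s ≠ t)
    (k : ℕ)
    (h : ∀ X : Finset V, s ∉ X → t ∉ X → X.card < k →
      ∃ p : G.Walk s t, ∀ x ∈ p.support, x ∉ X) :
    ∃ P : Fin k → G.Path s t, ∀ i j, i ≠ j → ∀ x, x ∈ (P i).1.support → x ∈ (P j).1.support →
      x = s ∨ x = t := by
  set inner : V × Bool → V × Bool → Prop :=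
    fun a b => a.1 = b.1 ∧ a.2 = false ∧ b.2 = true ∧ a.1 ≠ s ∧ a.1 ≠ t with hinner
  set link : V × Bool → V × Bool → Prop :=
    fun a b => a.2 = true ∧ b.2 = false ∧ G.Adj a.1 b.1 with hlink
  set c : V × Bool → V × Bool → ℤ :=
    fun a b => if inner a b then 1 else if link a b then (k : ℤ) else 0 with hc
  have hc0 : ∀ a b, 0 ≤ c a b := fun a b => by simp only [hc]; split_ifs <;> omega
  have hst' : ((s, true) : V × Bool) ≠ (t, false) := by simp
  obtain ⟨f, S, hf, hs, ht, hval⟩ := max_flow_int hc0 hst'
  have hk : (k : ℤ) ≤ flowValue f (s, true) := by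
    by_contra hlt
    have hterm : ∀ a ∈ S, ∀ b, b ∉ S → c a b ≤ cutCap c S := fun a ha b hb =>
      le_cutCap hc0 ha hb
    have hnolink : ∀ u v, G.Adj u v → (u, true) ∈ S → (v, false) ∈ S := by
      intro u v huv hu
      by_contra hv
      have h1 := hterm _ hu _ hv
      have h2 : c (u, true) (v, false) = k := by simp [hc, hinner, hlink, huv]
      omega
    set X := univ.filter fun v => v ≠ s ∧ v ≠ t ∧ (v, false) ∈ S ∧ (v, true) ∉ S with hX
    have hXcard : (X.card : ℤ) ≤ cutCap c S := by
      rw [← card_image_of_injective X (f := fun v => ((v, false) : V × Bool))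
        fun a b e => (Prod.ext_iff.1 e).1]
      refine card_le_cutCap hc0 (fun x hx => ?_) fun x hx => ?_
      · obtain ⟨v, hv, rfl⟩ := mem_image.1 hx
        exact (mem_filter.1 hv).2.2.2.1
      · obtain ⟨v, hv, rfl⟩ := mem_image.1 hx
        obtain ⟨-, h1, h2, -, h4⟩ := mem_filter.1 hv
        exact ⟨(v, true), h4, by simp [hc, hinner, h1, h2]⟩
    obtain ⟨p, hp⟩ := h X (by simp [hX]) (by simp [hX]) (by omega)
    have key : ∀ (u z : V) (q : G.Walk u z), (z, false) ∉ S → z = t → (u, true) ∈ S →
        (∀ x ∈ q.support, x ∉ X) → u ≠ z → False := by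
      intro u z q
      induction q with
      | nil => exact fun _ _ _ _ hne => hne rfl
      | @cons u v w huv q ih =>
        intro hw hwt hu hq _
        have hv := hnolink u v huv hu
        by_cases hvw : v = w
        · exact hw (hvw ▸ hv)
        refine ih hw hwt ?_ (fun x hx => hq x (List.mem_cons_of_mem _ hx)) hvw
        by_cases hvs : v = s
        · rw [hvs]; exact hs
        · by_contra hvt
          exact hq v (List.mem_cons_of_mem _ q.start_mem_support)
            (mem_filter.2 ⟨mem_univ v, hvs, fun e => hvw (e.trans hwt.symm), hv, hvt⟩)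
    exact key s t p ht rfl hs hp hst
  obtain ⟨g, L, hsum, hL⟩ := flow_decomposition hc0 hst' k f hf hk
  choose hne hhead hlast hch using hL
  have hone : ∀ i a b, g i a b = 1 → inner a b ∨ link a b := by
    intro i a b h1
    by_contra hn
    rw [not_or] at hn
    have h2 := single_le_sum (f := fun j => max (g j a b) 0) (fun j _ => le_max_right _ _) (mem_univ i)
    have h3 := hsum a b
    have h4 := hf.le a b
    simp only [h1] at h2
    simp only [hc, if_neg hn.1, if_neg hn.2] at h4
    omega
  have huse : ∀ i, ∀ x ∈ L i, x.1 ≠ s → x.1 ≠ t → g i (x.1, false) (x.1, true) = 1 := by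
    intro i x hx hxs hxt
    obtain ⟨A, B, hAB⟩ := List.append_of_mem hx
    have hch' := hch i
    rw [hAB] at hch'
    rcases x with ⟨v, b⟩
    cases b with
    | false =>
      cases B with
      | nil =>
        have h1 : (L i).getLast (hne i) = (v, false) := by simp [hAB]
        rw [hlast i] at h1
        exact absurd (Prod.ext_iff.1 h1).1.symm hxt
      | cons y B =>
        have h1 : g i (v, false) y = 1 := (List.isChain_cons_cons.1 hch'.right_of_append).1
        rcases hone i _ _ h1 with h2 | h2
        · obtain ⟨e1, -, e3, -⟩ := h2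
          rw [show y = (v, true) from Prod.ext e1.symm e3] at h1
          exact h1
        · exact absurd h2.1 (by simp)
    | true =>
      rcases List.eq_nil_or_concat A with rfl | ⟨A', y, rfl⟩
      · have h1 : (L i).head (hne i) = (v, true) := by simp [hAB]
        rw [hhead i] at h1
        exact absurd (Prod.ext_iff.1 h1).1.symm hxs
      · have h1 : g i y (v, true) = 1 := by
          rw [List.concat_eq_append, List.append_assoc, List.singleton_append] at hch'
          exact (List.isChain_cons_cons.1 hch'.right_of_append).1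
        rcases hone i _ _ h1 with h2 | h2
        · obtain ⟨e1, e2, -⟩ := h2
          rw [show y = (v, false) from Prod.ext e1 e2] at h1
          exact h1
        · exact absurd h2.2.1 (by simp)
  have hpath : ∀ i, ∃ P : G.Path s t, ∀ x ∈ P.1.support, x ∈ (L i).map Prod.fst := by
    intro i
    have hmap : ((L i).map Prod.fst).IsChain fun a b => a = b ∨ G.Adj a b := by
      rw [List.isChain_map]
      refine (hch i).imp fun a b h1 => ?_
      rcases hone i a b h1 with h2 | h2
      · exact Or.inl h2.1
      · exact Or.inr h2.2.2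
    obtain ⟨p, hp⟩ := reachable_of_chain _ (by simp [hne i]) hmap
    refine ⟨(p.copy (by simp [List.head_map, hhead i]) (by simp [List.getLast_map, hlast i])).toPath,
      fun x hx => hp x ?_⟩
    have := SimpleGraph.Walk.support_bypass_subset_support _ hx
    rwa [SimpleGraph.Walk.support_copy] at this
  choose P hP using hpath
  refine ⟨P, fun i j hij x h1 h2 => ?_⟩
  by_contra hcon
  rw [not_or] at hcon
  obtain ⟨a, ha, rfl⟩ := List.mem_map.1 (hP i x h1)
  obtain ⟨b, hb, he⟩ := List.mem_map.1 (hP j _ h2)
  have e1 := huse i a ha hcon.1 hcon.2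
  have e2 := huse j b hb (he ▸ hcon.1) (he ▸ hcon.2)
  rw [he] at e2
  have h3 := (sum_le_sum_of_subset_of_nonneg (subset_univ ({i, j} : Finset (Fin k)))
    fun l _ _ => le_max_right (g l (a.1, false) (a.1, true)) 0).trans (hsum _ _)
  rw [sum_pair hij, e1, e2] at h3
  have h4 := hf.le (a.1, false) (a.1, true)
  have h5 : c (a.1, false) (a.1, true) = 1 := by simp [hc, hinner, hcon.1, hcon.2]
  omega

omit [Fintype V] in
/-- The converse for points. -/
theorem exists_avoiding_walk {G : SimpleGraph V} {s t : V} {k : ℕ} (P : Fin k → G.Path s t)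
    (hP : ∀ i j, i ≠ j → ∀ x, x ∈ (P i).1.support → x ∈ (P j).1.support → x = s ∨ x = t)
    (X : Finset V) (hs : s ∉ X) (ht : t ∉ X) (hX : X.card < k) :
    ∃ p : G.Walk s t, ∀ x ∈ p.support, x ∉ X := by
  by_contra hcon
  push Not at hcon
  choose x hx hxX using fun i => hcon (P i).1
  have hinj : Function.Injective x := fun i j he => by
    by_contra hne
    rcases hP i j hne _ (hx i) (he ▸ hx j) with h | h
    · exact hs (h ▸ hxX i)
    · exact ht (h ▸ hxX i)
  have := card_le_card_of_injOn (s := (univ : Finset (Fin k))) x (fun i _ => hxX i) hinj.injOn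
  rw [card_univ, Fintype.card_fin] at this
  omega

end FA.NetworkFlow
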