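import Mathlib

/-!
# Stable matchings

The theorem of Gale and Shapley, by a largest justified set of refusals.
-/

set_option autoImplicit false

noncomputable section

namespace FA.NetworkFlow

open Finset Classical

variable {M W : Type*} [Fintype M] [Fintype W]

/-- `w` is the choice of `m` among those who have not refused. -/
def Proposes (pm : M → W → ℕ) (R : Finset (M × W)) (m : M) (w : W) : Prop :=
  (m, w) ∉ R ∧ ∀ w', (m, w') ∉ R → pm m w ≤ pm m w'

theorem exists_stable (pm : M → W → ℕ) (pw : W → M → ℕ) (hpm : ∀ m, Function.Injective (pm m))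
    (hpw : ∀ w, Function.Injective (pw w)) :
    ∃ μ : M → Option W, (∀ m m' w, μ m = some w → μ m' = some w → m = m') ∧
      (Fintype.card M ≤ Fintype.card W → ∀ m, (μ m).isSome) ∧
      ∀ m w, μ m ≠ some w →
        (∃ w', μ m = some w' ∧ pm m w' < pm m w) ∨ ∃ m', μ m' = some w ∧ pw w m' < pw w m := by
  let Good : Finset (M × W) → Prop := fun R =>
    ∀ p ∈ R, ∃ m', pw p.2 m' < pw p.2 p.1 ∧ Proposes pm R m' p.2
  obtain ⟨R, hR, hmax⟩ := exists_max_image (univ.filter Good) Finset.card
    ⟨∅, mem_filter.2 ⟨mem_univ _, fun p hp => absurd hp (notMem_empty p)⟩⟩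
  replace hR := (mem_filter.1 hR).2
  have huniq : ∀ m m' w, Proposes pm R m w → Proposes pm R m' w → ¬pw w m < pw w m' := by
    intro m m' w hm hm' hlt
    have hkeep : ∀ a b, Proposes pm R a b → (a, b) ≠ (m', w) → Proposes pm (insert (m', w) R) a b :=
      fun a b hab hne => ⟨fun h => (mem_insert.1 h).elim hne hab.1,
        fun b' hb' => hab.2 b' fun h => hb' (mem_insert_of_mem h)⟩
    have hmm : (m, w) ≠ (m', w) := fun he => by
      simp only [Prod.mk.injEq] at he; rw [he.1] at hlt; exact lt_irrefl _ hlt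
    have hgood : Good (insert (m', w) R) := by
      intro p hp
      rcases mem_insert.1 hp with rfl | hp
      · exact ⟨m, hlt, hkeep m w hm hmm⟩
      · obtain ⟨q, hq1, hq2⟩ := hR p hp
        by_cases hqe : (q, p.2) = (m', w)
        · obtain ⟨e1, e2⟩ := Prod.ext_iff.1 hqe
          simp only at e1 e2
          rw [e2, e1] at hq1
          exact ⟨m, by rw [e2]; omega, e2 ▸ hkeep m w hm hmm⟩
        · exact ⟨q, hq1, hkeep q p.2 hq2 hqe⟩
    have := hmax _ (mem_filter.2 ⟨mem_univ _, hgood⟩)
    rw [card_insert_of_notMem hm'.1] at this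
    omega
  let μ : M → Option W := fun m => if h : ∃ w, Proposes pm R m w then some h.choose else none
  have hμ : ∀ m w, μ m = some w ↔ Proposes pm R m w := by
    intro m w
    simp only [μ]
    constructor
    · split_ifs with h
      · intro he; rw [← Option.some.inj he]; exact h.choose_spec
      · exact fun he => by simp at he
    · intro hw
      rw [dif_pos ⟨w, hw⟩]
      have hex : ∃ w, Proposes pm R m w := ⟨w, hw⟩
      exact congrArg some (hpm m (le_antisymm (hex.choose_spec.2 w hw.1) (hw.2 _ hex.choose_spec.1)))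
  have hinj : ∀ m m' w, μ m = some w → μ m' = some w → m = m' := fun m m' w h h' => hpw w
    (le_antisymm (le_of_not_gt (huniq m' m w ((hμ m' w).1 h') ((hμ m w).1 h)))
      (le_of_not_gt (huniq m m' w ((hμ m w).1 h) ((hμ m' w).1 h'))))
  have hbest : ∀ m w, (m, w) ∉ R → ∃ w', μ m = some w' ∧ pm m w' ≤ pm m w := by
    intro m w hw
    obtain ⟨w', hw', hmin⟩ := exists_min_image (univ.filter fun b => (m, b) ∉ R) (pm m)
      ⟨w, mem_filter.2 ⟨mem_univ w, hw⟩⟩
    have hmin' : ∀ b, (m, b) ∉ R → pm m w' ≤ pm m b := fun b hb =>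
      hmin b (mem_filter.2 ⟨mem_univ b, hb⟩)
    exact ⟨w', (hμ m w').2 ⟨(mem_filter.1 hw').2, hmin'⟩, hmin' w hw⟩
  refine ⟨μ, hinj, fun hcard m => ?_, fun m w hne => ?_⟩
  · rcases hm : μ m with _ | w
    · exfalso
      have hall : ∀ w, ∃ m' ∈ univ.erase m, μ m' = some w := by
        intro w
        have hmR : (m, w) ∈ R := by
          by_contra hno
          obtain ⟨w', h1, -⟩ := hbest m w hno
          rw [hm] at h1
          simp at h1
        obtain ⟨m', -, h2⟩ := hR _ hmR
        have h2' := (hμ m' w).2 h2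
        exact ⟨m', mem_erase.2 ⟨fun e => by rw [e, hm] at h2'; simp at h2',
          mem_univ _⟩, h2'⟩
      choose ψ hψ1 hψ2 using hall
      have := card_le_card_of_injOn (s := (univ : Finset W)) ψ (fun w _ => hψ1 w)
        (fun a _ b _ he => Option.some.inj ((hψ2 a).symm.trans (he ▸ hψ2 b)))
      rw [card_erase_of_mem (mem_univ m), card_univ, card_univ] at this
      have : 0 < Fintype.card M := Fintype.card_pos_iff.2 ⟨m⟩
      omega
    · rfl
  · by_cases hR' : (m, w) ∈ R
    · obtain ⟨m', h1, h2⟩ := hR _ hR'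
      exact Or.inr ⟨m', (hμ m' w).2 h2, h1⟩
    · obtain ⟨w', h1, h2⟩ := hbest m w hR'
      refine Or.inl ⟨w', h1, lt_of_le_of_ne h2 fun e => hne ?_⟩
      rw [h1, hpm m e]

end FA.NetworkFlow
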